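import Fermat.Agent.BDRCohomology.Topology
import Fermat.Agent.TateSen.Untwisted

/-!
# The continuous cohomology of `B_dR⁺` in degree one

By successive approximation from Tate's computation for `ℂ_p (k)`, the classes with values in
`t ^ k B_dR⁺` vanish for `1 ≤ k`, and those with values in `B_dR⁺` are the multiples of `log χ`.
-/

set_option autoImplicit false
set_option linter.unusedSectionVars false

noncomputable section

open Ideal Finset Filter FA.TateSen FA.FontaineWintenberger FA.BDR FA.PadicHodge WittVector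
open scoped Topology

namespace FA.BDRCoh

variable {p : ℕ} [hp : Fact p.Prime]

local notation "Cp" => ℂ_[p]
local notation "G" => PadicAlgCl p ≃ₐ[ℚ_[p]] PadicAlgCl p

/-- **Dividing by the uniformiser is continuous**, with bounded loss. -/
theorem exists_small_of_piMu_mul (n : ℕ) : ∃ C : ℕ, ∀ (N : ℕ) (y : BPlus p),
    Small p (n + 1) (N + C) (mkQ p (n + 1) (piMu p * y)) → Small p n N (mkQ p n y) := by
  obtain ⟨c, hc⟩ := exists_piMu_eq (p := p)
  obtain ⟨C, e, he⟩ := exists_bdd n (mkQ p n (↑c⁻¹ : BPlus p))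
  refine ⟨C, fun N y ⟨a, ha⟩ => ?_⟩
  rw [natCast_pow_eq_imgA, ← map_mul (imgA p (n + 1)), imgA, RingHom.comp_apply,
    RingHom.comp_apply, ← sub_eq_zero, ← map_sub, mkQ_eq_zero_iff, piMu_pow_dvd_iff] at ha
  have h0 : theta p a = 0 := by
    have h1 := piBDR_dvd_iff.1 ((dvd_pow_self _ n.succ_ne_zero).trans ha)
    rw [map_sub, map_mul, thetaPlus_piMu, zero_mul, zero_sub, neg_eq_zero, thetaPlus_toBPlus,
      thetaC_algebraMap, map_mul, map_pow, map_natCast] at h1
    refine (mul_eq_zero.1 (Subtype.ext h1)).resolve_left (pow_ne_zero _ fun h2 => ?_)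
    exact Nat.cast_ne_zero.2 hp.out.ne_zero
      (by rw [← coe_natCast_OC, h2]; rfl : (p : Cp) = 0)
  obtain ⟨a', rfl⟩ : xi p ∣ a := by
    rw [← mem_span_singleton, ← ker_theta]
    exact RingHom.mem_ker.2 h0
  set A := toBPlus p (algebraMap _ _ ((p : AInf p) ^ (N + C) * a'))
  have hA : toBPlus p (algebraMap _ _ ((p : AInf p) ^ (N + C) * (xi p * a'))) = piBDR p * A := by
    rw [mul_left_comm, map_mul, map_mul]
    rfl
  rw [hA, hc, mul_assoc, ← mul_sub, pow_succ', mul_dvd_mul_iff_left piBDR_ne_zero,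
    ← piMu_pow_dvd_iff, ← mkQ_eq_zero_iff, map_sub, sub_eq_zero] at ha
  refine ⟨a' * e, ?_⟩
  have hy : mkQ p n y = mkQ p n (↑c⁻¹ : BPlus p) * mkQ p n ((c : BPlus p) * y) := by
    rw [← map_mul, Units.inv_mul_cancel_left]
  rw [hy, ha, show mkQ p n A = imgA p n ((p : AInf p) ^ (N + C) * a') from rfl, map_mul, map_mul,
    ← he, ← natCast_pow_eq_imgA, pow_add]
  ring

variable (p) in
/-- Continuity for the topology of `B_dR⁺` modulo each power of the uniformiser. -/
def ContBPlus (f : G → BPlus p) : Prop := ∀ n, ContQ p n fun σ => mkQ p n (f σ)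

theorem ContBPlus.const (b : BPlus p) : ContBPlus p fun _ => b := fun n => ContQ.const n _

theorem ContBPlus.add {f g : G → BPlus p} (hf : ContBPlus p f) (hg : ContBPlus p g) :
    ContBPlus p fun σ => f σ + g σ := fun n => by simpa only [map_add] using (hf n).add (hg n)

theorem ContBPlus.sub {f g : G → BPlus p} (hf : ContBPlus p f) (hg : ContBPlus p g) :
    ContBPlus p fun σ => f σ - g σ := fun n => by simpa only [map_sub] using (hf n).sub (hg n)

theorem ContBPlus.mul {f g : G → BPlus p} (hf : ContBPlus p f) (hg : ContBPlus p g) :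
    ContBPlus p fun σ => f σ * g σ := fun n => by simpa only [map_mul] using (hf n).mul (hg n)

theorem ContBPlus.sum {J : Type*} (s : Finset J) {f : J → G → BPlus p}
    (hf : ∀ j ∈ s, ContBPlus p (f j)) : ContBPlus p fun σ => ∑ j ∈ s, f j σ := fun n => by
  simpa only [map_sum] using ContQ.sum s fun j hj => hf j hj n

theorem contBPlus_qpHom {c : G → ℚ_[p]} (hc : Continuous c) :
    ContBPlus p fun σ => qpHom p (c σ) := fun n => contQ_qpHom n hc

theorem contBPlus_smul (b : BPlus p) : ContBPlus p fun σ : G => σ • b := fun n => contQ_smul n b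

theorem ContBPlus.of_piMu_mul {f : G → BPlus p} (hf : ContBPlus p fun σ => piMu p * f σ) :
    ContBPlus p f := fun n σ₀ N => by
  obtain ⟨C, hC⟩ := exists_small_of_piMu_mul (p := p) n
  refine (hf (n + 1) σ₀ (N + C)).mono fun σ hσ => ?_
  rw [← map_sub] at hσ ⊢
  rw [← mul_sub] at hσ
  exact hC N _ hσ

theorem ContBPlus.of_piMu_pow_mul {f : G → BPlus p} :
    ∀ m : ℕ, (ContBPlus p fun σ => piMu p ^ m * f σ) → ContBPlus p f
  | 0, h => by simpa only [pow_zero, one_mul] using h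
  | m + 1, h => ContBPlus.of_piMu_pow_mul m
      (ContBPlus.of_piMu_mul (by simpa only [pow_succ', mul_assoc] using h))

/-- **`θ` is continuous.** -/
theorem ContBPlus.continuous_thetaPlus {f : G → BPlus p} (hf : ContBPlus p f) :
    Continuous fun σ => thetaPlus p (f σ) := by
  refine continuous_iff_continuousAt.2 fun σ₀ => Metric.tendsto_nhds.2 fun ε hε => ?_
  obtain ⟨N, hN⟩ := exists_pow_lt_of_lt_one hε (norm_p_C_lt (p := p))
  refine (hf 1 σ₀ N).mono fun σ hσ => ?_
  obtain ⟨a, ha⟩ := hσ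
  rw [← map_sub, natCast_pow_eq_imgA, ← map_mul (imgA p 1), imgA, RingHom.comp_apply,
    RingHom.comp_apply, ← sub_eq_zero, ← map_sub, mkQ_eq_zero_iff, pow_one, piMu_dvd_iff,
    map_sub, sub_eq_zero, map_sub, thetaPlus_toBPlus, thetaC_algebraMap] at ha
  rw [dist_eq_norm, ha, map_mul, map_pow, map_natCast, MulMemClass.coe_mul,
    SubmonoidClass.coe_pow, coe_natCast_OC, norm_mul, norm_pow]
  exact (mul_le_of_le_one_right (by positivity) (norm_OC_le _)).trans_lt hN

theorem tPeriod_ne_zero : tPeriod p ≠ 0 := by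
  obtain ⟨u, hu, -⟩ := exists_tPeriod_eq (p := p)
  rw [hu]
  exact mul_ne_zero piMu_ne_zero u.ne_zero

theorem tPeriod_pow_dvd_iff {n : ℕ} {x : BPlus p} : tPeriod p ^ n ∣ x ↔ piMu p ^ n ∣ x := by
  obtain ⟨u, hu, -⟩ := exists_tPeriod_eq (p := p)
  rw [hu, mul_pow, ← Units.val_pow_eq_pow_val, Units.mul_right_dvd]

theorem thetaPlus_tPeriod : thetaPlus p (tPeriod p) = 0 := by
  obtain ⟨u, hu, -⟩ := exists_tPeriod_eq (p := p)
  rw [hu, map_mul, thetaPlus_piMu, zero_mul]

theorem eq_zero_of_tPeriod_pow_dvd {x : BPlus p} (h : ∀ n, tPeriod p ^ n ∣ x) : x = 0 :=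
  eq_zero_of_dvd_completion _ _ bdrIdeal_eq fun n => by
    change piBDR p ^ n ∣ _
    rw [← piMu_pow_dvd_iff, ← tPeriod_pow_dvd_iff]
    exact h n

theorem smul_tPeriod_pow (σ : G) (m : ℕ) :
    σ • tPeriod p ^ m = qpHom p (((chi p σ : ℤ_[p]) : ℚ_[p]) ^ m) * tPeriod p ^ m := by
  rw [smul_pow', smul_tPeriod, mul_pow, map_pow]

theorem smul_tPeriod_pow_dvd (σ : G) {m : ℕ} {x : BPlus p} (h : tPeriod p ^ m ∣ x) :
    tPeriod p ^ m ∣ σ • x := by
  obtain ⟨b, rfl⟩ := h
  rw [smul_mul', smul_tPeriod_pow, mul_comm (qpHom p _), mul_assoc]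
  exact dvd_mul_right _ _

theorem ContBPlus.of_tPeriod_pow_mul {f : G → BPlus p} (m : ℕ)
    (hf : ContBPlus p fun σ => tPeriod p ^ m * f σ) : ContBPlus p f := by
  obtain ⟨u, hu, -⟩ := exists_tPeriod_eq (p := p)
  have h1 := (hf.mul (ContBPlus.const ((↑u⁻¹ : BPlus p) ^ m)))
  refine ContBPlus.of_piMu_pow_mul m (Eq.mp (congrArg (ContBPlus p) (funext fun σ => ?_)) h1)
  rw [hu, mul_right_comm, ← mul_pow, Units.mul_inv_cancel_right]

variable (p) in
/-- A continuous cocycle with values in `B_dR⁺`. -/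
structure IsBCocycle (f : G → BPlus p) : Prop where
  cont : ContBPlus p f
  cocycle : ∀ σ τ : G, f (σ * τ) = f σ + σ • f τ

theorem isBCocycle_coboundary (y : BPlus p) : IsBCocycle p fun σ : G => σ • y - y where
  cont := (contBPlus_smul y).sub (ContBPlus.const y)
  cocycle σ τ := by rw [mul_smul, smul_sub]; ring

theorem IsBCocycle.sub {f g : G → BPlus p} (hf : IsBCocycle p f) (hg : IsBCocycle p g) :
    IsBCocycle p fun σ => f σ - g σ where
  cont := hf.cont.sub hg.cont
  cocycle σ τ := by rw [hf.cocycle, hg.cocycle, smul_sub]; ring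

theorem isBCocycle_logChi (c : ℚ_[p]) :
    IsBCocycle p fun σ : G => qpHom p (c * logChi p σ) where
  cont := contBPlus_qpHom (continuous_const.mul continuous_logChi)
  cocycle σ τ := by rw [logChi_mul, mul_add, map_add, smul_qpHom]

/-- One step of the approximation. -/
theorem exists_step {m : ℕ} (hm : 1 ≤ m) {f : G → BPlus p} (hf : IsBCocycle p f)
    (hd : ∀ σ, tPeriod p ^ m ∣ f σ) :
    ∃ y : BPlus p, tPeriod p ^ m ∣ y ∧ ∀ σ, tPeriod p ^ (m + 1) ∣ f σ - (σ • y - y) := by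
  choose h hh using hd
  have hcoc : ∀ σ τ : G, h (σ * τ) =
      h σ + qpHom p (((chi p σ : ℤ_[p]) : ℚ_[p]) ^ m) * σ • h τ := fun σ τ => by
    refine mul_left_cancel₀ (pow_ne_zero m (tPeriod_ne_zero (p := p))) ?_
    rw [← hh, hf.cocycle, hh σ, hh τ, smul_mul', smul_tPeriod_pow]
    ring
  have hcont : ContBPlus p h :=
    ContBPlus.of_tPeriod_pow_mul m (by simpa only [← hh] using hf.cont)
  obtain ⟨c, hc⟩ := exists_coboundary (j := (m : ℤ)) (by omega)
    (f := fun σ => thetaPlus p (h σ))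
    ⟨hcont.continuous_thetaPlus, fun σ τ => by
      rw [hcoc, map_add, map_mul, thetaPlus_qpHom, smul_bplus_def, thetaPlus_bplusGal, twist,
        zpow_natCast]⟩
  obtain ⟨b, rfl⟩ := thetaPlus_surjective c
  refine ⟨tPeriod p ^ m * b, dvd_mul_right _ _, fun σ => ?_⟩
  have hθ : thetaPlus p (h σ - (qpHom p (((chi p σ : ℤ_[p]) : ℚ_[p]) ^ m) * σ • b - b)) = 0 := by
    have h2 := hc σ
    rw [coboundary, twist, zpow_natCast] at h2
    rw [map_sub, map_sub, map_mul, thetaPlus_qpHom, smul_bplus_def, thetaPlus_bplusGal, h2,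
      sub_self]
  have hd' : tPeriod p ∣ h σ - (qpHom p (((chi p σ : ℤ_[p]) : ℚ_[p]) ^ m) * σ • b - b) := by
    rw [← pow_one (tPeriod p), tPeriod_pow_dvd_iff, pow_one, piMu_dvd_iff]
    exact hθ
  rw [show f σ - (σ • (tPeriod p ^ m * b) - tPeriod p ^ m * b) =
    tPeriod p ^ m * (h σ - (qpHom p (((chi p σ : ℤ_[p]) : ℚ_[p]) ^ m) * σ • b - b)) by
    rw [smul_mul', smul_tPeriod_pow, hh σ]; ring, pow_succ]
  exact mul_dvd_mul_left _ hd'

/-- **The classes with values in `t ^ k B_dR⁺` vanish for `1 ≤ k`.** -/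
theorem exists_coboundary_twisted {k : ℕ} (hk : 1 ≤ k) {f : G → BPlus p} (hf : IsBCocycle p f)
    (hd : ∀ σ, tPeriod p ^ k ∣ f σ) :
    ∃ y : BPlus p, tPeriod p ^ k ∣ y ∧ ∀ σ, f σ = σ • y - y := by
  let P : ℕ → BPlus p → Prop := fun n S =>
    tPeriod p ^ k ∣ S ∧ ∀ σ, tPeriod p ^ (k + n) ∣ f σ - (σ • S - S)
  have hstep : ∀ (n : ℕ) (S : {S // P n S}),
      ∃ S' : {S // P (n + 1) S}, tPeriod p ^ (k + n) ∣ (S' : BPlus p) - S := fun n ⟨S, hS⟩ => by
    obtain ⟨y, hy, hy'⟩ := exists_step (m := k + n) (by omega)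
      (hf.sub (isBCocycle_coboundary S)) hS.2
    refine ⟨⟨S + y, dvd_add hS.1 ((pow_dvd_pow _ (Nat.le_add_right k n)).trans hy), fun σ => ?_⟩,
      by simpa only [add_sub_cancel_left] using hy⟩
    rw [show f σ - (σ • (S + y) - (S + y)) = f σ - (σ • S - S) - (σ • y - y) by
      rw [smul_add]; ring]
    exact hy' σ
  choose next hnext using hstep
  let S : ∀ n, {S // P n S} := fun n =>
    Nat.rec (motive := fun n => {S // P n S})
      ⟨0, dvd_zero _, fun σ => by
        show tPeriod p ^ (k + 0) ∣ f σ - (σ • (0 : BPlus p) - 0)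
        simpa only [smul_zero, sub_zero, add_zero] using hd σ⟩ next n
  obtain ⟨T, hT, hTs⟩ : ∃ T : ℕ → BPlus p, (∀ n, P n (T n)) ∧
      ∀ n, tPeriod p ^ (k + n) ∣ T (n + 1) - T n :=
    ⟨fun n => (S n).1, fun n => (S n).2, fun n => hnext n (S n)⟩
  have hcauchy : ∀ m n : ℕ, m ≤ n → tPeriod p ^ (k + m) ∣ T m - T n := fun m n hmn => by
    induction n, hmn using Nat.le_induction with
    | base => rw [sub_self]; exact dvd_zero _
    | succ n hmn ih =>
      have h1 := (pow_dvd_pow (tPeriod p) (by omega : k + m ≤ k + n)).trans (hTs n)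
      rw [show T m - T (n + 1) = (T m - T n) - (T (n + 1) - T n) by
        rw [sub_sub_sub_cancel_right]]
      exact dvd_sub ih h1
  obtain ⟨y, hy⟩ := exists_limit_bPlus T fun m n hmn => by
    rw [← piMu_pow_dvd_iff, ← tPeriod_pow_dvd_iff]
    exact (pow_dvd_pow _ (Nat.le_add_left m k)).trans (hcauchy m n hmn)
  have hy' : ∀ n, tPeriod p ^ n ∣ y - T n := fun n => by
    rw [tPeriod_pow_dvd_iff, piMu_pow_dvd_iff]
    exact hy n
  refine ⟨y, ?_, fun σ => sub_eq_zero.1 (eq_zero_of_tPeriod_pow_dvd fun n => ?_)⟩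
  · rw [show y = (y - T k) + T k by rw [sub_add_cancel]]
    exact dvd_add (hy' k) (hT k).1
  · rw [show f σ - (σ • y - y) = (f σ - (σ • T n - T n)) -
      (σ • (y - T n) - (y - T n)) by rw [smul_sub]; ring]
    exact dvd_sub ((pow_dvd_pow _ (Nat.le_add_left n k)).trans ((hT n).2 σ))
      (dvd_sub (smul_tPeriod_pow_dvd σ (hy' n)) (hy' n))

/-- **The classes with values in `B_dR⁺` are the multiples of `log χ`.** -/
theorem exists_logChi_add {f : G → BPlus p} (hf : IsBCocycle p f) :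
    ∃ (c : ℚ_[p]) (y : BPlus p), ∀ σ, f σ = qpHom p (c * logChi p σ) + (σ • y - y) := by
  obtain ⟨c, z, hz⟩ := exists_log_add_coboundary (f := fun σ => thetaPlus p (f σ))
    ⟨hf.cont.continuous_thetaPlus, fun σ τ => by
      rw [hf.cocycle, map_add, twist_zero, one_mul, smul_bplus_def, thetaPlus_bplusGal]⟩
  obtain ⟨b, rfl⟩ := thetaPlus_surjective z
  obtain ⟨y, -, hy⟩ := exists_coboundary_twisted (k := 1) le_rfl
    ((hf.sub (isBCocycle_logChi c)).sub (isBCocycle_coboundary b)) fun σ => by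
      rw [tPeriod_pow_dvd_iff, pow_one, piMu_dvd_iff, map_sub, map_sub, map_sub, hz σ,
        coboundary_zero, thetaPlus_qpHom, smul_bplus_def, thetaPlus_bplusGal]
      ring
  refine ⟨c, b + y, fun σ => ?_⟩
  have h := hy σ
  rw [smul_add]
  linear_combination h

/-- **The coefficient of `log χ` is unique.** -/
theorem logChi_coeff_unique_bPlus {c c' : ℚ_[p]} {y y' : BPlus p}
    (h : ∀ σ : G, qpHom p (c * logChi p σ) + (σ • y - y) =
      qpHom p (c' * logChi p σ) + (σ • y' - y')) : c = c' :=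
  logChi_coeff_unique (y := thetaPlus p y) (y' := thetaPlus p y') fun σ => by
    have h1 := congrArg (thetaPlus p) (h σ)
    rw [map_add, map_add, map_sub, map_sub, thetaPlus_qpHom, thetaPlus_qpHom, smul_bplus_def,
      smul_bplus_def, thetaPlus_bplusGal, thetaPlus_bplusGal] at h1
    rw [coboundary_zero, coboundary_zero]
    exact h1

end FA.BDRCoh
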