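import Fermat.Agent.BDRCohomology.Filtration
import Fermat.Agent.PadicExtensions.Extension
import Fermat.Agent.PadicHodge.Examples

/-!
# Extensions of de Rham representations

An extension of a de Rham representation `D` by a de Rham representation `A` is de Rham as soon as
every weight of `A` is larger than every weight of `D`: the class of the extension lands in
`H¹ (t ^ k B_dR⁺)` with `1 ≤ k`, which vanishes.
-/

set_option autoImplicit false
set_option linter.unusedSectionVars false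

noncomputable section

open Finset FA.TateSen FA.BDR FA.Sen FA.PadicHodge FA.PadicDescent
open scoped Matrix

namespace FA.BDRCoh

variable {p : ℕ} [hp : Fact p.Prime] {d₁ d₂ : Type} [Fintype d₁] [DecidableEq d₁] [Fintype d₂]
  [DecidableEq d₂]

local notation "Cp" => ℂ_[p]
local notation "G" => PadicAlgCl p ≃ₐ[ℚ_[p]] PadicAlgCl p
local notation "ι" => algebraMap (BPlus p) (BField p)

/-- The action on matrices as a map. -/
theorem map_smul_mul {l m n : Type} [Fintype m] (σ : G) (L : Matrix l m (BField p))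
    (M : Matrix m n (BField p)) :
    (L * M).map (σ • ·) = L.map (σ • ·) * M.map (σ • ·) :=
  Matrix.map_mul (L := L) (M := M) (f := MulSemiringAction.toRingHom G (BField p) σ)

theorem smul_matrix_inv {ρ : G → Matrix d₁ d₁ ℚ_[p]} {X : (Matrix d₁ d₁ (BField p))ˣ}
    (hX : ∀ σ : G, (ρ σ).map (qpB p) * (X : Matrix d₁ d₁ (BField p)).map (σ • ·) = X) (σ : G) :
    (↑X⁻¹ : Matrix d₁ d₁ (BField p)) * (ρ σ).map (qpB p) =
      (↑X⁻¹ : Matrix d₁ d₁ (BField p)).map (σ • ·) := by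
  refine left_inv_eq_right_inv (b := (↑X⁻¹ : Matrix d₁ d₁ (BField p)) * (ρ σ).map (qpB p))
    (a := (X : Matrix d₁ d₁ (BField p)).map (σ • ·)) ?_ ?_
  · rw [mul_assoc, hX σ, Units.inv_mul]
  · rw [← map_smul_mul, Units.mul_inv]
    exact Matrix.map_one _ (smul_zero σ) (smul_one σ)

/-- The blocks of a triangular representation. -/
theorem blocks_of_isQpRep {A : G → Matrix d₁ d₁ ℚ_[p]} {D : G → Matrix d₂ d₂ ℚ_[p]}
    {c : G → Matrix d₁ d₂ ℚ_[p]}
    (hU : IsQpRep p (d₁ ⊕ d₂) fun σ => Matrix.fromBlocks (A σ) (c σ) 0 (D σ)) :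
    IsQpRep p d₁ A ∧ IsQpRep p d₂ D ∧ Continuous c ∧
      ∀ σ τ, c (σ * τ) = A σ * c τ + c σ * D τ := by
  have hmul : ∀ σ τ : G, A (σ * τ) = A σ * A τ ∧ c (σ * τ) = A σ * c τ + c σ * D τ ∧
      D (σ * τ) = D σ * D τ := fun σ τ => by
    have h : Matrix.fromBlocks (A (σ * τ)) (c (σ * τ)) 0 (D (σ * τ)) = _ := hU.map_mul σ τ
    simp only [Matrix.fromBlocks_multiply, Matrix.mul_zero, Matrix.zero_mul, add_zero, zero_add,
      Matrix.fromBlocks_inj] at h
    exact ⟨h.1, h.2.1, h.2.2.2⟩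
  have h1 := hU.map_one
  rw [← Matrix.fromBlocks_one, Matrix.fromBlocks_inj] at h1
  have hc : ∀ a b, Continuous fun σ => Matrix.fromBlocks (A σ) (c σ) 0 (D σ) a b := fun a b =>
    (continuous_apply b).comp ((continuous_apply a).comp hU.cont)
  exact ⟨⟨continuous_matrix fun a b => hc (Sum.inl a) (Sum.inl b), h1.1,
      fun σ τ => (hmul σ τ).1⟩,
    ⟨continuous_matrix fun a b => hc (Sum.inr a) (Sum.inr b), h1.2.2.2, fun σ τ => (hmul σ τ).2.2⟩,
    continuous_matrix fun a b => hc (Sum.inl a) (Sum.inr b), fun σ τ => (hmul σ τ).2.1⟩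

/-- Integers separating the weights. -/
theorem exists_separating {j : d₁ → ℤ} {k : d₂ → ℤ} (hlt : ∀ i l, k l < j i) :
    ∃ lo hi : ℤ, hi < lo ∧ (∀ i, lo ≤ j i) ∧ ∀ l, k l ≤ hi := by
  rcases isEmpty_or_nonempty d₁ with h | h
  · exact ⟨(∑ l, |k l|) + 1, ∑ l, |k l|, lt_add_one _, isEmptyElim, fun l =>
      (le_abs_self (k l)).trans (single_le_sum (fun l _ => abs_nonneg (k l)) (mem_univ l))⟩
  · obtain ⟨i₀, -, h₀⟩ := exists_min_image univ j univ_nonempty
    exact ⟨j i₀, j i₀ - 1, sub_one_lt _, fun i => h₀ i (mem_univ i), fun l => by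
      have := hlt i₀ l
      omega⟩

/-- An invertible triangular matrix. -/
def triUnit {B : Type*} [CommRing B] (P : (Matrix d₁ d₁ B)ˣ) (Q : (Matrix d₂ d₂ B)ˣ)
    (W : Matrix d₁ d₂ B) : (Matrix (d₁ ⊕ d₂) (d₁ ⊕ d₂) B)ˣ :=
  ((Matrix.isUnit_fromBlocks_zero₂₁ (A := (P : Matrix d₁ d₁ B)) (B := W)
    (D := (Q : Matrix d₂ d₂ B))).2 ⟨P.isUnit, Q.isUnit⟩).unit

/-- **The class of the extension is trivial over `B_dR`.** -/
theorem exists_splitting {A : G → Matrix d₁ d₁ ℚ_[p]} {D : G → Matrix d₂ d₂ ℚ_[p]}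
    {c : G → Matrix d₁ d₂ ℚ_[p]}
    (hU : IsQpRep p (d₁ ⊕ d₂) fun σ => Matrix.fromBlocks (A σ) (c σ) 0 (D σ))
    {X : (Matrix d₁ d₁ (BField p))ˣ}
    (hX : ∀ σ : G, (A σ).map (qpB p) * (X : Matrix d₁ d₁ (BField p)).map (σ • ·) = X)
    {Z : (Matrix d₂ d₂ (BField p))ˣ}
    (hZ : ∀ σ : G, (D σ).map (qpB p) * (Z : Matrix d₂ d₂ (BField p)).map (σ • ·) = Z)
    {P : (Matrix d₁ d₁ Cp)ˣ} {Q : (Matrix d₂ d₂ Cp)ˣ} {j : d₁ → ℤ} {k : d₂ → ℤ}
    (hP : ∀ σ, FA.Sen.conj (cpRep A) P σ = Matrix.diagonal fun i => twist p (j i) σ)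
    (hQ : ∀ σ, FA.Sen.conj (cpRep D) Q σ = Matrix.diagonal fun i => twist p (k i) σ)
    (hlt : ∀ i l, k l < j i) :
    ∃ Y : Matrix d₁ d₂ (BField p), ∀ σ : G,
      Y.map (σ • ·) + (↑X⁻¹ : Matrix d₁ d₁ (BField p)) * (c σ).map (qpB p) *
        (Z : Matrix d₂ d₂ (BField p)).map (σ • ·) = Y := by
  obtain ⟨hA, hD, hc, hcm⟩ := blocks_of_isQpRep hU
  obtain ⟨lo, hi, hlohi, hlo, hhi⟩ := exists_separating hlt
  choose a ha using fun i r => (inFilB_basis hA hX hP).2 lo hlo i r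
  choose e he using fun r l => (inFilB_basis hD hZ hQ).1 hi hhi r l
  set K := (lo - hi).toNat
  set f : d₁ → d₂ → G → BPlus p := fun i l σ => (∑ s, (∑ r, a i r * qpHom p (c σ r s)) *
    (qpHom p (((chi p σ : ℤ_[p]) : ℚ_[p]) ^ (-hi)) * σ • e s l)) * tPeriod p ^ K
  set F : G → Matrix d₁ d₂ (BField p) := fun σ => (↑X⁻¹ : Matrix d₁ d₁ (BField p)) *
    (c σ).map (qpB p) * (Z : Matrix d₂ d₂ (BField p)).map (σ • ·) with hF
  have hFf : ∀ i l σ, F σ i l = ι (f i l σ) := fun i l σ => by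
    have hK : tB p ^ lo * tB p ^ (-hi) = tB p ^ K := by
      rw [← zpow_add₀ tB_ne_zero, ← zpow_natCast]
      congr 1
      omega
    simp only [hF, f, Matrix.mul_apply, Matrix.map_apply, map_mul, map_sum, map_pow, sum_mul]
    refine sum_congr rfl fun s _ => sum_congr rfl fun r _ => ?_
    rw [ha, he, smul_mul', smul_tB_zpow, smul_algebraMap_bfield,
      show ι (tPeriod p) = tB p from rfl, ← hK, qpB, RingHom.comp_apply]
    ring
  have hchi : Continuous fun σ : G => ((chi p σ : ℤ_[p]) : ℚ_[p]) ^ (-hi) := by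
    have h1 : Continuous fun σ : G => (chi p σ : ℤ_[p]) := Units.continuous_val.comp continuous_chi
    have h2 : Continuous fun σ : G => ((chi p σ : ℤ_[p]) : ℚ_[p]) := continuous_subtype_val.comp h1
    exact h2.zpow₀ _ fun σ => Or.inl (chi_ne_zero σ)
  have hcont : ∀ i l, ContBPlus p (f i l) := fun i l =>
    (ContBPlus.sum univ fun s _ =>
      (ContBPlus.sum univ fun r _ => (ContBPlus.const (a i r)).mul
        (contBPlus_qpHom (hc.matrix_elem r s))).mul
      ((contBPlus_qpHom hchi).mul (contBPlus_smul (e s l)))).mul (ContBPlus.const _)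
  have hcoc : ∀ σ τ : G, F (σ * τ) = F σ + (F τ).map (σ • ·) := fun σ τ => by
    have hZτ : (Z : Matrix d₂ d₂ (BField p)).map ((σ * τ) • ·) =
        ((Z : Matrix d₂ d₂ (BField p)).map (τ • ·)).map (σ • ·) := by
      ext u v
      simp only [Matrix.map_apply, mul_smul]
    have hDτ : (D τ).map (qpB p) * ((Z : Matrix d₂ d₂ (BField p)).map (τ • ·)).map (σ • ·) =
        (Z : Matrix d₂ d₂ (BField p)).map (σ • ·) := by
      conv_lhs => rw [← map_qpB_smul σ (D τ)]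
      rw [← map_smul_mul, hZ τ]
    simp only [hF, hcm, hZτ, Matrix.map_add _ (map_add (qpB p)), Matrix.map_mul, Matrix.mul_add,
      Matrix.add_mul, map_smul_mul, map_qpB_smul, ← smul_matrix_inv hX σ]
    rw [add_comm]
    simp only [Matrix.mul_assoc, hDτ]
  have hy : ∀ i l, ∃ y : BPlus p, ∀ σ, f i l σ = σ • y - y := fun i l => by
    obtain ⟨y, -, hy⟩ := exists_coboundary_twisted (k := K) (by omega)
      (f := f i l) ⟨hcont i l, fun σ τ => iota_injective (by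
        rw [map_add, ← smul_algebraMap_bfield, ← hFf, ← hFf, ← hFf, hcoc]
        rfl)⟩ fun σ => dvd_mul_left _ _
    exact ⟨y, hy⟩
  choose y hy using hy
  refine ⟨Matrix.of fun i l => -ι (y i l), fun σ => Matrix.ext fun i l => ?_⟩
  show σ • (-ι (y i l)) + F σ i l = -ι (y i l)
  rw [smul_neg, hFf, hy i l σ, map_sub, smul_algebraMap_bfield]
  ring

/-- **An extension of de Rham representations with weights in the right order is de Rham**; its
weights are those of the two pieces. -/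
theorem isDeRham_fromBlocks {A : G → Matrix d₁ d₁ ℚ_[p]} {D : G → Matrix d₂ d₂ ℚ_[p]}
    {c : G → Matrix d₁ d₂ ℚ_[p]}
    (hU : IsQpRep p (d₁ ⊕ d₂) fun σ => Matrix.fromBlocks (A σ) (c σ) 0 (D σ))
    (hA : IsDeRham A) (hD : IsDeRham D)
    {P : (Matrix d₁ d₁ Cp)ˣ} {Q : (Matrix d₂ d₂ Cp)ˣ} {j : d₁ → ℤ} {k : d₂ → ℤ}
    (hP : ∀ σ, FA.Sen.conj (cpRep A) P σ = Matrix.diagonal fun i => twist p (j i) σ)
    (hQ : ∀ σ, FA.Sen.conj (cpRep D) Q σ = Matrix.diagonal fun i => twist p (k i) σ)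
    (hlt : ∀ i l, k l < j i) :
    IsDeRham (fun σ => Matrix.fromBlocks (A σ) (c σ) 0 (D σ)) ∧
      ∃ R : (Matrix (d₁ ⊕ d₂) (d₁ ⊕ d₂) Cp)ˣ, ∀ σ,
        FA.Sen.conj (cpRep fun σ => Matrix.fromBlocks (A σ) (c σ) 0 (D σ)) R σ =
          Matrix.diagonal fun a => twist p (Sum.elim j k a) σ := by
  refine ⟨?_, ?_⟩
  · obtain ⟨X, hX⟩ := hA
    obtain ⟨Z, hZ⟩ := hD
    obtain ⟨Y, hY⟩ := exists_splitting hU hX hZ hP hQ hlt
    refine ⟨triUnit X Z ((X : Matrix d₁ d₁ (BField p)) * Y), fun σ => ?_⟩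
    simp only [triUnit, IsUnit.unit_spec, Matrix.fromBlocks_map, Matrix.fromBlocks_multiply,
      Matrix.map_zero _ (map_zero (qpB p)), Matrix.map_zero _ (smul_zero σ), Matrix.mul_zero,
      Matrix.zero_mul, add_zero, zero_add, hX σ, hZ σ]
    congr 1
    have h1 : (c σ).map (qpB p) * (Z : Matrix d₂ d₂ (BField p)).map (σ • ·) =
        (X : Matrix d₁ d₁ (BField p)) * ((↑X⁻¹ : Matrix d₁ d₁ (BField p)) * (c σ).map (qpB p) *
          (Z : Matrix d₂ d₂ (BField p)).map (σ • ·)) := by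
      rw [← Matrix.mul_assoc, ← Matrix.mul_assoc, Units.mul_inv, Matrix.one_mul]
    rw [map_smul_mul, ← Matrix.mul_assoc, hX σ, h1, ← Matrix.mul_add, hY σ]
  · have e : cpRep (fun σ => Matrix.fromBlocks (A σ) (c σ) 0 (D σ)) = fun σ =>
        Matrix.fromBlocks (cpRep A σ) ((c σ).map (algebraMap ℚ_[p] Cp)) 0 (cpRep D σ) := by
      funext σ
      rw [cpRep, Matrix.fromBlocks_map, Matrix.map_zero _ (map_zero _)]
      rfl
    have hR := isRep_cpRep hU
    rw [e] at hR ⊢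
    exact FA.PadicExt.isHodgeTate_fromBlocks hR hP hQ fun i l => (hlt i l).ne'

/-- **Every extension of `ℚ_p (k)` by `ℚ_p (j)` with `k < j` is de Rham.** -/
theorem isDeRham_tate_extension {j k : ℤ} (hjk : k < j) {c : G → Matrix Unit Unit ℚ_[p]}
    (hU : IsQpRep p (Unit ⊕ Unit) fun σ =>
      Matrix.fromBlocks (tateRep (fun _ : Unit => j) σ) (c σ) 0
        (tateRep (fun _ : Unit => k) σ)) :
    IsDeRham (fun σ => Matrix.fromBlocks (tateRep (fun _ : Unit => j) σ) (c σ) 0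
      (tateRep (fun _ : Unit => k) σ)) := by
  have h : ∀ v : ℤ, ∀ σ : G, FA.Sen.conj (cpRep (tateRep fun _ : Unit => v)) 1 σ =
      Matrix.diagonal fun _ : Unit => twist p v σ := fun v σ => by
    rw [cpRep_tateRep, FA.Sen.conj_eq_iff, Units.val_one, map_one, mul_one, one_mul]
    rfl
  exact (isDeRham_fromBlocks hU (isDeRham_tateRep _) (isDeRham_tateRep _) (h j) (h k)
    fun _ _ => hjk).1

end FA.BDRCoh
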