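import Fermat.Agent.BDRCohomology.Cohomology
import Fermat.Agent.PadicDescent.Functorial

/-!
# The filtration on the periods of a de Rham representation

If every weight is at most `m`, then the invariants of `B_dR ⊗ V` lie in `t ^ (-m) B_dR⁺ ⊗ V`; the
inverse of a de Rham basis is controlled in the same way by the smallest weight.
-/

set_option autoImplicit false
set_option linter.unusedSectionVars false

noncomputable section

open Finset FA.TateSen FA.BDR FA.Sen FA.PadicHodge FA.PadicDescent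
open scoped Matrix

namespace FA.BDRCoh

variable {p : ℕ} [hp : Fact p.Prime] {d : Type} [Fintype d] [DecidableEq d]

local notation "Cp" => ℂ_[p]
local notation "G" => PadicAlgCl p ≃ₐ[ℚ_[p]] PadicAlgCl p
local notation "ι" => algebraMap (BPlus p) (BField p)

variable (p) in
/-- The period in `B_dR`. -/
def tB : BField p := algebraMap (BPlus p) (BField p) (tPeriod p)

theorem tB_ne_zero : tB p ≠ 0 := (map_ne_zero_iff _ iota_injective).2 tPeriod_ne_zero

variable (p) in
/-- The elements of `t ^ m B_dR⁺`. -/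
def InFilB (m : ℤ) (x : BField p) : Prop := ∃ b : BPlus p, x = ι b * tB p ^ m

theorem InFilB.mul {m m' : ℤ} {x y : BField p} (hx : InFilB p m x) (hy : InFilB p m' y) :
    InFilB p (m + m') (x * y) := by
  obtain ⟨a, rfl⟩ := hx
  obtain ⟨b, rfl⟩ := hy
  exact ⟨a * b, by rw [map_mul, zpow_add₀ tB_ne_zero]; ring⟩

theorem InFilB.mono {m m' : ℤ} {x : BField p} (hx : InFilB p m' x) (h : m ≤ m') :
    InFilB p m x := by
  obtain ⟨a, rfl⟩ := hx
  obtain ⟨e, rfl⟩ : ∃ e : ℕ, m' = m + e := ⟨(m' - m).toNat, by omega⟩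
  exact ⟨a * tPeriod p ^ e, by
    rw [map_mul, map_pow, zpow_add₀ tB_ne_zero, zpow_natCast, show ι (tPeriod p) = tB p from rfl]
    ring⟩

theorem smul_tB_zpow (σ : G) (m : ℤ) :
    σ • tB p ^ m = ι (qpHom p (((chi p σ : ℤ_[p]) : ℚ_[p]) ^ m)) * tB p ^ m := by
  have h1 : σ • tB p = ι (qpHom p ((chi p σ : ℤ_[p]) : ℚ_[p])) * tB p := by
    rw [tB, smul_algebraMap_bfield, smul_tPeriod, map_mul]
  rw [← MulSemiringAction.toRingHom_apply, map_zpow₀, MulSemiringAction.toRingHom_apply, h1,
    mul_zpow]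
  congr 1
  exact (map_zpow₀ ((algebraMap (BPlus p) (BField p)).comp (qpHom p)) _ m).symm

/-- A step of the filtration in terms of the period. -/
theorem inFilB_of_eq {N n : ℕ} {x : BField p} {b : BPlus p}
    (h : x * ι (piMu p ^ N) = ι (b * piMu p ^ n)) : InFilB p ((n : ℤ) - N) x := by
  obtain ⟨u, hu, -⟩ := exists_tPeriod_eq (p := p)
  have hpi : piMu p = tPeriod p * (↑u⁻¹ : BPlus p) := by rw [hu, Units.mul_inv_cancel_right]
  refine ⟨b * (↑u⁻¹ : BPlus p) ^ n * (u : BPlus p) ^ N, ?_⟩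
  rw [zpow_sub₀ tB_ne_zero, zpow_natCast, zpow_natCast, mul_div_assoc',
    eq_div_iff (pow_ne_zero _ tB_ne_zero), tB, ← map_pow, ← map_pow, ← map_mul]
  have h2 := congrArg (fun z => z * ι ((u : BPlus p) ^ N)) h
  simp only [mul_assoc, ← map_mul] at h2
  rw [hpi, mul_pow, mul_pow, mul_assoc (tPeriod p ^ N), ← mul_pow (↑u⁻¹ : BPlus p),
    Units.inv_mul, one_pow, mul_one] at h2
  rw [h2]
  congr 1
  ring

/-- **The invariants lie in the step of the filtration given by the largest weight.** -/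
theorem inFilB_of_mem_dR {ρ : G → Matrix d d ℚ_[p]} {P : (Matrix d d Cp)ˣ} {j : d → ℤ}
    (hP : ∀ σ, FA.Sen.conj (cpRep ρ) P σ = Matrix.diagonal fun i => twist p (j i) σ) {m : ℤ}
    (hm : ∀ i, j i ≤ m) {x : d → BField p} (hx : x ∈ dR ρ) (i : d) : InFilB p (-m) (x i) := by
  classical
  obtain ⟨N, hN⟩ := exists_filD_top ρ
  have hstep : ∀ n : ℕ, (n : ℤ) - N < -m → filD ρ N n ≤ filD ρ N (n + 1) := fun n hn => by
    have h0 : Module.finrank ℚ_[p] (dHT (cpRep ρ) ((n : ℤ) - N)) = 0 := by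
      rw [show (n : ℤ) - N = -((N : ℤ) - n) by omega, ← card_weight_eq hP ((N : ℤ) - n),
        Finset.card_eq_zero, Finset.filter_eq_empty_iff]
      intro a _ ha
      have := hm a
      omega
    have h1 := finrank_filD_le ρ N n
    rw [h0, zero_add] at h1
    have := filD_finite ρ N n
    exact (Submodule.eq_of_le_of_finrank_le (filD_antitone ρ N n.le_succ) h1).ge
  have hmem : ∀ n : ℕ, n ≤ ((N : ℤ) - m).toNat → x ∈ filD ρ N n := by
    intro n
    induction n with
    | zero => intro _; rwa [hN]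
    | succ n ih => intro hn; exact hstep n (by omega) (ih (by omega))
  obtain ⟨b, hb⟩ := (hmem _ le_rfl).2 i
  exact (inFilB_of_eq hb).mono (by omega)

/-- The transpose of the inverse of a de Rham basis is a de Rham basis of the dual. -/
theorem transInv_col_mem_dR {ρ : G → Matrix d d ℚ_[p]} (hρ : IsQpRep p d ρ)
    {X : (Matrix d d (BField p))ˣ}
    (hX : ∀ σ : G, (ρ σ).map (qpB p) * (X : Matrix d d (BField p)).map (σ • ·) = X) (k : d) :
    (transInv X : Matrix d d (BField p)).col k ∈ dR (dualRep ρ) := by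
  intro σ
  set A : Matrix d d (BField p) := (ρ σ⁻¹).map (qpB p)
  have h1 : actM σ (X : Matrix d d (BField p)) = A * X := by
    conv_rhs => rw [← hX σ]
    rw [← mul_assoc, ← Matrix.map_mul, inv_mul_rep hρ, Matrix.map_one _ (map_zero _) (map_one _),
      one_mul, actM_apply]
  have h2 : actM σ (↑X⁻¹ : Matrix d d (BField p)) * A * X = 1 := by
    rw [mul_assoc, ← h1, ← map_mul, Units.inv_mul, map_one]
  have h3 := congrArg Matrix.transpose (left_inv_eq_right_inv h2 X.mul_inv)
  rw [Matrix.transpose_mul] at h3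
  funext i
  exact congrFun (congrFun h3 i) k

/-- **A de Rham basis and its inverse are controlled by the extreme weights.** -/
theorem inFilB_basis {ρ : G → Matrix d d ℚ_[p]} (hρ : IsQpRep p d ρ)
    {X : (Matrix d d (BField p))ˣ}
    (hX : ∀ σ : G, (ρ σ).map (qpB p) * (X : Matrix d d (BField p)).map (σ • ·) = X)
    {P : (Matrix d d Cp)ˣ} {j : d → ℤ}
    (hP : ∀ σ, FA.Sen.conj (cpRep ρ) P σ = Matrix.diagonal fun i => twist p (j i) σ) :
    (∀ m, (∀ i, j i ≤ m) → ∀ i k, InFilB p (-m) ((X : Matrix d d (BField p)) i k)) ∧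
    ∀ m, (∀ i, m ≤ j i) → ∀ i k, InFilB p m ((↑X⁻¹ : Matrix d d (BField p)) i k) := by
  refine ⟨fun m hm i k => inFilB_of_mem_dR hP hm (x := (X : Matrix d d (BField p)).col k)
      (fun σ => funext fun a => congrFun (congrFun (hX σ) a) k) i, fun m hm i k => ?_⟩
  have h := inFilB_of_mem_dR (conj_dual hρ hP) (m := -m) (fun a => by
    have := hm a
    omega) (transInv_col_mem_dR hρ hX i) k
  rwa [neg_neg] at h

end FA.BDRCoh
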