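import Fermat.Agent.PadicHodge.Period
import Mathlib.RingTheory.WittVector.TeichmullerSeries

/-!
# The topology of `B_dR⁺` modulo a power of the uniformiser

The unit ball is the image of `A_inf`: an element is `N`-small when it is `p ^ N` times one of
them. For this topology the Galois group acts continuously, and the division by the uniformiser is
continuous.
-/

set_option autoImplicit false
set_option linter.unusedSectionVars false

noncomputable section

open Ideal Finset Filter FA.TateSen FA.FontaineWintenberger FA.BDR FA.PadicHodge WittVector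
open scoped Topology

namespace FA.BDRCoh

variable {p : ℕ} [hp : Fact p.Prime]

local notation "Cp" => ℂ_[p]
local notation "G" => PadicAlgCl p ≃ₐ[ℚ_[p]] PadicAlgCl p

/-- The difference of `p`-th powers of congruent elements. -/
theorem pow_p_sub_pow_mem {A : Type*} [CommRing A] {I : Ideal A} (hp' : (p : A) ∈ I) {a b : A}
    {k : ℕ} (h1 : a - b ∈ I) (h : a - b ∈ I ^ k) : a ^ p - b ^ p ∈ I ^ (k + 1) := by
  rw [← geom_sum₂_mul a b p, mul_comm, pow_succ]
  refine Ideal.mul_mem_mul h ?_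
  have hsum : ∀ i ∈ range p, a ^ i * b ^ (p - 1 - i) - b ^ (p - 1) ∈ I := fun i hi => by
    rw [mem_range] at hi
    rw [show b ^ (p - 1) = b ^ i * b ^ (p - 1 - i) by rw [← pow_add]; congr 1; omega, ← sub_mul]
    refine Ideal.mul_mem_right _ _ ?_
    obtain ⟨c, hc⟩ := sub_dvd_pow_sub_pow a b i
    rw [hc]
    exact Ideal.mul_mem_right _ _ h1
  have e : ∑ i ∈ range p, a ^ i * b ^ (p - 1 - i) =
      ∑ i ∈ range p, (a ^ i * b ^ (p - 1 - i) - b ^ (p - 1)) + (p : A) * b ^ (p - 1) := by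
    rw [sum_sub_distrib, sum_const, card_range, nsmul_eq_mul, sub_add_cancel]
  rw [e]
  exact add_mem (sum_mem hsum) (Ideal.mul_mem_right _ _ hp')

theorem iterate_pow_sub_pow_mem {A : Type*} [CommRing A] {I : Ideal A} (hp' : (p : A) ∈ I)
    {a b : A} (h : a - b ∈ I) : ∀ m : ℕ, a ^ p ^ m - b ^ p ^ m ∈ I ^ (m + 1)
  | 0 => by simpa using h
  | m + 1 => by
    rw [pow_succ p m, pow_mul, pow_mul]
    exact pow_p_sub_pow_mem hp' (Ideal.pow_le_self m.succ_ne_zero (iterate_pow_sub_pow_mem hp' h m))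
      (iterate_pow_sub_pow_mem hp' h m)

variable (p) in
/-- The ideal of definition of `A_inf`. -/
def defIdeal : Ideal (AInf p) := span {(p : AInf p), xi p}

theorem p_mem_defIdeal : (p : AInf p) ∈ defIdeal p := subset_span (Or.inl rfl)

theorem teichmuller_sub_mem {x y : OFlat p} (h : pFlat p ∣ y - x) :
    teichmuller p y - teichmuller p x ∈ defIdeal p := by
  obtain ⟨c, hc⟩ := h
  set z := teichmuller p y - teichmuller p x - teichmuller p (pFlat p) * teichmuller p c
  have hz : z ∈ span {(p : AInf p)} := by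
    rw [mem_span_p_iff_coeff_zero_eq_zero]
    show WittVector.constantCoeff z = 0
    have hT : ∀ r : OFlat p, WittVector.constantCoeff (teichmuller p r) = r :=
      fun r => teichmuller_coeff_zero p r
    simp only [z, map_sub, map_mul, hT, hc, sub_self]
  have hxi : teichmuller p (pFlat p) ∈ defIdeal p := by
    rw [show teichmuller p (pFlat p) = xi p + (p : AInf p) by rw [xi, sub_add_cancel]]
    exact add_mem (subset_span (Or.inr rfl)) p_mem_defIdeal
  rw [show teichmuller p y - teichmuller p x = z + teichmuller p (pFlat p) * teichmuller p c by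
    simp only [z, sub_add_cancel]]
  exact add_mem (span_mono (s := {(p : AInf p)}) (Set.singleton_subset_iff.2 (Or.inl rfl)) hz)
    (Ideal.mul_mem_right _ _ hxi)

theorem defIdeal_pow_le (N n : ℕ) :
    defIdeal p ^ (N + n) ≤ span {(p : AInf p) ^ N} ⊔ span {xi p ^ n} := by
  rw [defIdeal, span_insert, ← span_singleton_pow, ← span_singleton_pow]
  exact Ideal.sup_pow_add_le_pow_sup_pow

/-- **The action moves a Teichmüller element little near the identity.** -/
theorem eventually_teichmuller (x : OFlat p) (M : ℕ) :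
    ∀ᶠ u in 𝓝 (1 : G),
      ainfGal u (teichmuller p x) - teichmuller p x ∈ defIdeal p ^ M := by
  have hnb : ∀ᶠ u in 𝓝 (1 : G), ‖gal u (termFlat x M) - termFlat x M‖ ≤ ‖(p : Cp)‖ := by
    have h := ((continuous_gal_apply (termFlat x M)).sub
      (continuous_const (y := termFlat x M))).norm.tendsto (1 : G)
    simp only [Pi.sub_apply, gal_one, sub_self, norm_zero] at h
    exact (h.eventually (gt_mem_nhds (norm_p_pos_C (p := p)))).mono fun u hu => hu.le
  refine hnb.mono fun u hu => ?_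
  set y := oflatGal u x
  have hterm : ‖termFlat (y - x) M‖ ≤ ‖(p : Cp)‖ := by
    have h1 := termFlat_add (y - x) x M
    rw [sub_add_cancel, ModEqP] at h1
    have h2 : termFlat y M = gal u (termFlat x M) := by
      show (toFlatFun y).seq M = _
      exact (congrArg (fun z : Flat p => z.seq M) (toFlat_oflatGal u x)).trans
        (flatGal_seq u (toFlat x) M)
    rw [h2] at h1
    rw [show termFlat (y - x) M = (gal u (termFlat x M) - termFlat x M) -
      (gal u (termFlat x M) - (termFlat (y - x) M + termFlat x M)) by ring, sub_eq_add_neg]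
    exact (IsUltrametricDist.norm_add_le_max _ _).trans (max_le hu (by rw [norm_neg]; exact h1))
  have hroot : pFlat p ∣ rootsFlat M y - rootsFlat M x := by
    refine pFlat_dvd (dvd_OC.2 ?_)
    have e : rootsFlat M y - rootsFlat M x = rootsFlat M (y - x) :=
      (iterate_map_sub ((frobeniusEquiv (OFlat p) p).symm) M y x).symm
    rw [e]
    exact hterm
  have hpow : ∀ z : OFlat p, teichmuller p z = teichmuller p (rootsFlat M z) ^ p ^ M := fun z => by
    rw [← map_pow]
    congr 1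
    rw [← iterateFrobenius_def]
    exact (Function.LeftInverse.iterate (frobenius_apply_frobeniusEquiv_symm (OFlat p) p) M z).symm
      |>.trans (iterate_frobenius (R := OFlat p) p M _)
  rw [show ainfGal u (teichmuller p x) = teichmuller p y by rw [ainfGal, map_teichmuller],
    hpow y, hpow x]
  exact Ideal.pow_le_pow_right (Nat.le_succ M)
    (iterate_pow_sub_pow_mem p_mem_defIdeal (teichmuller_sub_mem hroot) M)

variable (p) in
/-- `N`-small elements. -/
def Small (n N : ℕ) (x : BQuot p n) : Prop :=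
  ∃ a : AInf p, x = (p : BQuot p n) ^ N * imgA p n a

theorem Small.zero (n N : ℕ) : Small p n N 0 := ⟨0, by rw [map_zero, mul_zero]⟩

theorem Small.add {n N : ℕ} {x y : BQuot p n} (hx : Small p n N x) (hy : Small p n N y) :
    Small p n N (x + y) := by
  obtain ⟨a, rfl⟩ := hx
  obtain ⟨b, rfl⟩ := hy
  exact ⟨a + b, by rw [map_add, mul_add]⟩

theorem Small.neg {n N : ℕ} {x : BQuot p n} (hx : Small p n N x) : Small p n N (-x) := by
  obtain ⟨a, rfl⟩ := hx
  exact ⟨-a, by rw [map_neg, mul_neg]⟩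

theorem Small.mono {n N M : ℕ} {x : BQuot p n} (hx : Small p n M x) (h : N ≤ M) :
    Small p n N x := by
  obtain ⟨a, rfl⟩ := hx
  refine ⟨(p : AInf p) ^ (M - N) * a, ?_⟩
  rw [map_mul, ← natCast_pow_eq_imgA, ← mul_assoc, ← pow_add, Nat.add_sub_cancel' h]

theorem small_of_mem {n N : ℕ} {a : AInf p}
    (h : a ∈ span {(p : AInf p) ^ N} ⊔ span {xi p ^ n}) : Small p n N (imgA p n a) := by
  obtain ⟨b, hb, c, hc, rfl⟩ := Submodule.mem_sup.1 h
  obtain ⟨b', rfl⟩ := mem_span_singleton.1 hb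
  refine ⟨b', ?_⟩
  rw [map_add, imgA_eq_zero_iff.2 (mem_span_singleton.1 hc), add_zero, map_mul,
    ← natCast_pow_eq_imgA]

theorem Small.mul_bdd {n N c : ℕ} {x y : BQuot p n} (hx : Small p n (N + c) x)
    (hy : Bdd p n c y) : Small p n N (x * y) := by
  obtain ⟨a, rfl⟩ := hx
  obtain ⟨b, hb⟩ := hy
  refine ⟨a * b, ?_⟩
  rw [map_mul, ← hb, pow_add]
  ring

/-- **Every element is bounded.** -/
theorem exists_bdd (n : ℕ) (x : BQuot p n) : ∃ c, Bdd p n c x := by
  obtain ⟨b, rfl⟩ := Ideal.Quotient.mk_surjective x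
  obtain ⟨z, hz⟩ := Ideal.Quotient.mk_surjective (AdicCompletion.evalₐ (bdrIdeal p) n b)
  obtain ⟨a, k, hak⟩ := exists_mul_pow z
  refine ⟨k, a, ?_⟩
  have h1 : mkQ p n b = mkQ p n (toBPlus p z) := by
    rw [← sub_eq_zero, ← map_sub, mkQ_eq_zero_iff, piMu_pow_dvd_iff]
    refine (toCompl_pow_dvd_iff _ _ bdrIdeal_eq xiP_ne_zero).2 ?_
    rw [map_sub, evalₐ_toCompl, hz, sub_self]
  show (p : BQuot p n) ^ k * mkQ p n b = _
  rw [h1, natCast_pow_eq_imgA, imgA, RingHom.comp_apply, RingHom.comp_apply, RingHom.comp_apply,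
    RingHom.comp_apply, ← map_mul, ← map_mul, mul_comm, hak]

/-- The action on the quotients. -/
def galQ (σ : G) (n : ℕ) : BQuot p n →+* BQuot p n :=
  Ideal.quotientMap _ (bplusGal σ) (span_piMu_pow_le σ n)

theorem galQ_mkQ (σ : G) (n : ℕ) (b : BPlus p) : galQ σ n (mkQ p n b) = mkQ p n (σ • b) := rfl

theorem galQ_imgA (σ : G) (n : ℕ) (a : AInf p) :
    galQ σ n (imgA p n a) = imgA p n (ainfGal σ a) := by
  simp only [imgA, RingHom.comp_apply, galQ_mkQ, smul_bplus_def, bplusGal_toBPlus,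
    ainfPGal_algebraMap]

theorem Small.galQ {n N : ℕ} {x : BQuot p n} (hx : Small p n N x) (σ : G) :
    Small p n N (galQ σ n x) := by
  obtain ⟨a, rfl⟩ := hx
  exact ⟨ainfGal σ a, by rw [map_mul, map_pow, map_natCast, galQ_imgA]⟩

theorem eventually_small_imgA (n N : ℕ) (a : AInf p) :
    ∀ᶠ u in 𝓝 (1 : G), Small p n N (galQ u n (imgA p n a) - imgA p n a) := by
  set x : ℕ → OFlat p := fun i => ((frobeniusEquiv (OFlat p) p).symm ^ i) (a.coeff i)
  obtain ⟨r, hr⟩ := dvd_sub_sum_teichmuller_iterateFrobeniusEquiv_coeff a N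
  have hall : ∀ᶠ u in 𝓝 (1 : G), ∀ i ∈ Finset.Iic N,
      ainfGal u (teichmuller p (x i)) - teichmuller p (x i) ∈ defIdeal p ^ (N + n) :=
    (Finset.eventually_all _).2 fun i _ => eventually_teichmuller _ _
  refine hall.mono fun u hu => ?_
  rw [galQ_imgA, ← map_sub]
  refine small_of_mem ?_
  rw [eq_add_of_sub_eq hr, map_add, map_mul, map_pow, map_natCast, map_sum]
  simp only [map_mul, map_pow, map_natCast]
  rw [add_sub_add_comm, ← mul_sub, ← Finset.sum_sub_distrib]
  refine add_mem (mem_sup_left (mem_span_singleton.2 ((pow_dvd_pow _ N.le_succ).mul_right _)))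
    (sum_mem fun i hi => defIdeal_pow_le N n ?_)
  rw [← sub_mul]
  exact Ideal.mul_mem_right _ _ (hu i hi)

variable (p) in
/-- Continuity for the topology of `B_dR⁺` modulo `Π ^ n`. -/
def ContQ (n : ℕ) (f : G → BQuot p n) : Prop :=
  ∀ σ₀ : G, ∀ N : ℕ, ∀ᶠ σ in 𝓝 σ₀, Small p n N (f σ - f σ₀)

theorem ContQ.const (n : ℕ) (x : BQuot p n) : ContQ p n fun _ => x := fun _ N =>
  Eventually.of_forall fun _ => by simp only [sub_self]; exact Small.zero n N

theorem ContQ.add {n : ℕ} {f g : G → BQuot p n} (hf : ContQ p n f) (hg : ContQ p n g) :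
    ContQ p n fun σ => f σ + g σ := fun σ₀ N =>
  ((hf σ₀ N).and (hg σ₀ N)).mono fun σ h => by
    simp only [add_sub_add_comm]; exact h.1.add h.2

theorem ContQ.neg {n : ℕ} {f : G → BQuot p n} (hf : ContQ p n f) :
    ContQ p n fun σ => -f σ := fun σ₀ N =>
  (hf σ₀ N).mono fun σ h => by simp only [neg_sub_neg]; rw [← neg_sub]; exact h.neg

theorem ContQ.sub {n : ℕ} {f g : G → BQuot p n} (hf : ContQ p n f) (hg : ContQ p n g) :
    ContQ p n fun σ => f σ - g σ := by
  simpa only [sub_eq_add_neg] using hf.add hg.neg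

theorem ContQ.sum {n : ℕ} {J : Type*} (s : Finset J) {f : J → G → BQuot p n}
    (hf : ∀ j ∈ s, ContQ p n (f j)) : ContQ p n fun σ => ∑ j ∈ s, f j σ := by
  classical
  induction s using Finset.induction with
  | empty => simpa using ContQ.const n (0 : BQuot p n)
  | insert a s ha ih =>
    simp only [sum_insert ha]
    exact (hf a (mem_insert_self a s)).add (ih fun j hj => hf j (mem_insert_of_mem hj))

theorem ContQ.mul {n : ℕ} {f g : G → BQuot p n} (hf : ContQ p n f) (hg : ContQ p n g) :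
    ContQ p n fun σ => f σ * g σ := fun σ₀ N => by
  obtain ⟨c, hc⟩ := exists_bdd n (f σ₀)
  obtain ⟨c', hc'⟩ := exists_bdd n (g σ₀)
  refine ((hf σ₀ (N + c')).and (hg σ₀ (N + c))).mono fun σ h => ?_
  rw [show f σ * g σ - f σ₀ * g σ₀ = (f σ - f σ₀) * g σ₀ + (g σ - g σ₀) * f σ₀ +
    (f σ - f σ₀) * (g σ - g σ₀) by ring]
  obtain ⟨b, hb⟩ := h.2
  exact ((h.1.mul_bdd hc').add (h.2.mul_bdd hc)).add
    ((h.1.mono (Nat.le_add_right _ _)).mul_bdd (c := 0)
      ⟨(p : AInf p) ^ (N + c) * b, by rw [hb, pow_zero, one_mul, map_mul, natCast_pow_eq_imgA]⟩)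

/-- **Continuous scalars are continuous.** -/
theorem contQ_qpHom (n : ℕ) {c : G → ℚ_[p]} (hc : Continuous c) :
    ContQ p n fun σ => mkQ p n (qpHom p (c σ)) := fun σ₀ N => by
  have h := (hc.sub (continuous_const (y := c σ₀))).norm.tendsto σ₀
  simp only [Pi.sub_apply, sub_self, norm_zero] at h
  refine (h.eventually (gt_mem_nhds (zpow_pos (Nat.cast_pos.2 hp.out.pos) (-(N : ℤ))))).mono
    fun σ hσ => ?_
  have h1 : ‖((p : ℚ_[p]) ^ N)⁻¹ * (c σ - c σ₀)‖ ≤ 1 := by
    rw [norm_mul, norm_inv, norm_pow, Padic.norm_p, inv_pow, inv_inv]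
    rw [zpow_neg, zpow_natCast] at hσ
    have hpN : (0 : ℝ) < (p : ℝ) ^ N := pow_pos (Nat.cast_pos.2 hp.out.pos) N
    rw [show (p : ℝ) ^ N = ((p : ℝ) ^ N)⁻¹⁻¹ from (inv_inv _).symm]
    exact (inv_mul_le_one₀ (inv_pos.2 hpN)).2 hσ.le
  refine ⟨zpHom p ⟨_, h1⟩, ?_⟩
  rw [imgA_zpHom, ← map_natCast (mkQ p n), ← map_natCast (qpHom p), ← map_pow, ← map_pow,
    ← map_mul, ← map_mul, mul_inv_cancel_left₀ (pow_ne_zero _ (Nat.cast_ne_zero.2 hp.out.ne_zero)),
    map_sub, map_sub]

/-- **The Galois action is continuous.** -/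
theorem contQ_smul (n : ℕ) (b : BPlus p) : ContQ p n fun σ => mkQ p n (σ • b) := fun σ₀ N => by
  obtain ⟨c, a, ha⟩ := exists_bdd n (mkQ p n b)
  have hev : ∀ᶠ σ in 𝓝 σ₀,
      Small p n (N + c) (galQ (σ₀⁻¹ * σ) n (imgA p n a) - imgA p n a) := by
    have h := (continuous_const.mul continuous_id).tendsto (x := σ₀) (f := fun σ : G => σ₀⁻¹ * σ)
    rw [inv_mul_cancel] at h
    exact h.eventually (eventually_small_imgA n (N + c) a)
  refine hev.mono fun σ hσ => ?_
  have h1 := hσ.galQ σ₀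
  rw [map_sub, galQ_imgA, galQ_imgA, ← ainfGal_mul, mul_inv_cancel_left] at h1
  rw [galQ_imgA, ← galQ_imgA σ, ← galQ_imgA σ₀, ← ha, map_mul, map_mul, map_pow, map_natCast,
    map_pow, map_natCast, galQ_mkQ, galQ_mkQ, ← mul_sub] at h1
  obtain ⟨e, he⟩ := h1
  refine ⟨e, (isUnit_natCast_pow n c).mul_left_cancel ?_⟩
  show (p : BQuot p n) ^ c * (mkQ p n (σ • b) - mkQ p n (σ₀ • b)) = _
  rw [he, pow_add]
  ring

end FA.BDRCoh
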